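import Fermat.Agent.FF4.S44Skeleton
import Fermat.Agent.FF4.K4.S44Base
import Fermat.Agent.FF4.KGal
import Fermat.Agent.FF4.K7.TorEpsOne
import Fermat.Agent.FF4.K6.VPackOld
import Fermat.Agent.FF4.K6.VPackAux
import Fermat.Agent.BR.Inst.AnnulusInstFinal
import Fermat.Agent.Val.ResidueFieldA
import Fermat.Agent.S54.Frobenius
import Fermat.Agent.LR.NonEis
import Fermat.Agent.S05.H23Frey

/-!
# PROGRAMME II (S44): SEAM TEST of the final glue (helper25, organiser)

`s44_of_open` : the frozen S44 shape from helper4's `s44_of_kernels` (skeleton v3 @95143af6) with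
every GREEN kernel plugged in (`kDS`, `kDich` helper28; `kGal` helper1; `KTor` helper22; `kUp`
from helper7's `VPackOld`) `aux` from helper7's `VPackAux`) and the OPEN ones (`KV`, `KNat`, `KCase1`) as named hypotheses
stated at `Dt := modularData_final B hB h`.
-/

set_option autoImplicit false
set_option linter.unusedSectionVars false
set_option linter.unusedVariables false
set_option linter.style.haveILetI false

noncomputable section

set_option synthInstance.maxHeartbeats 400000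

namespace Fermat.Agent.FF4.Seam

open ModularCurve WeierstrassCurve IsLocalRing
open Fermat.Agent.X0 Fermat.Agent.BR Fermat.Agent.BR.Final Fermat.Agent.BR2
  Fermat.Agent.BR2.SetupOfData Fermat.Agent.BR2.LevelPlug Fermat.Agent.Pseudo Fermat.Agent.Jac
  Fermat.Agent.Hecke Fermat.Agent.FF4.S40Skeleton Fermat.Agent.FF4.S44Skeleton
  Fermat.Agent.FF4.K6 Fermat.Agent.BR.Inst.AnnulusInstFinal

/-- (K-UP), v3 literal, from helper7's `VPackOld`. -/
theorem kUp {W : WeierstrassCurve ℤ} {p M' r : ℕ} [NeZero M'] [NeZero r] [NeZero p]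
    [NeZero (M' * p)] [NeZero (M' * r)] [NeZero (M' * r * p)] (hp : p.Prime)
    (haux : IsAux W p M' r) (hpN : ¬ p ∣ M' * r) : KUp W p M' r := fun P₀ hnew =>
  ⟨VPack.mapPullN M' r (level_eq M' p r) P₀ haux.prime haux.not_dvd hp haux.not_dvd_succ,
    VPack.isNew_mapPullN M' r _ P₀ haux.prime haux.not_dvd hp haux.not_dvd_succ hpN hnew, rfl⟩

/-- (K-TOR), v3 literal, from helper22's K7. -/
theorem kTor {M' r p : ℕ} [NeZero M'] [NeZero r] [NeZero (M' * r)] [hpF : Fact p.Prime] [NeZero p]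
    [NeZero (M' * p)] [NeZero (M' * r * p)]
    {B : ValuationSubring Kb} {hB : B.LiesOverPrime p} {hpN : ¬ p ∣ M' * r}
    [IsAlgClosed (ResidueField B)] (Dt : ModularData (M' * r) p B hB hpN)
    (h2 : nuTwo (M' * r) = 0) (h3 : nuThree (M' * r) = 0) : KTor Dt :=
  fun _ hs _ hx hα hβ => Fermat.Agent.FF4.K7.torEpsOne_torsion Dt h2 h3 hs hx hα hβ

/-- the hypothesis `aux` of `s44_of_kernels` (v3 `IsAux`), from helper7's `VPackAux`. -/
theorem exists_isAux (W : WeierstrassCurve ℤ) (hΔ : W.Δ ≠ 0) {p : ℕ} (hp : p.Prime)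
    (hp5 : 5 ≤ p) {M' : ℕ} (hM' : 0 < M') (hpM' : ¬ p ∣ M') : ∃ r : ℕ, IsAux W p M' r := by
  obtain ⟨r, hrT, hr⟩ := exists_isAuxPrime hp hp5 hM' hpM' W.Δ.natAbs.primeFactors
  refine ⟨r, hr.prime, hr.not_dvd, ?_, hr.nuTwo, hr.nuThree, hr.not_dvd_succ⟩
  intro hd
  exact hrT (Nat.mem_primeFactors.mpr ⟨hr.prime, Int.natCast_dvd.mp hd,
    Int.natAbs_ne_zero.mpr hΔ⟩)

/-- **the hypothesis `aux` of `s44_of_kernels`**, for the Frey curve. -/
theorem aux_of_frey (P : FreyPackage) {N : ℕ} (hcond : P.IsConductorLevel N) (hpN : P.p ∣ N)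
    (W : WeierstrassCurve ℤ) (hW : W.IsIntegralModelOf P.freyCurve) :
    ∃ r : ℕ, IsAux W P.p (N / P.p) r := by
  have hM'pos : 0 < N / P.p := Nat.div_pos (Nat.le_of_dvd hcond.pos hpN) P.pp.pos
  have hNp : N / P.p * P.p = N := Nat.div_mul_cancel hpN
  have hpM' : ¬ P.p ∣ N / P.p := fun h => hcond.sq_not_dvd P.pp (by
    rw [← hNp, pow_two]; exact Nat.mul_dvd_mul h dvd_rfl)
  have : P.freyCurve.IsElliptic :=
    ⟨isUnit_iff_ne_zero.mpr (Fermat.Agent.S05.freyCurve_Δ_ne_zero P)⟩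
  exact exists_isAux W (Fermat.Agent.LR.NonEis.Δ_ne_zero_of_isIntegralModelOf P.freyCurve hW)
    P.pp P.hp5 hM'pos hpM'

/-- **S44 from the OPEN kernels only.** -/
theorem s44_of_open (P : FreyPackage) {N : ℕ} (hcond : P.IsConductorLevel N)
    (hpN : P.p ∣ N)
    (hirr : WeierstrassCurve.Affine.Point.GaloisRepIsIrreducible (K := AlgebraicClosure ℚ) ℚ
      P.freyCurve P.p)
    (hmod : P.ModularRepOfLevel N)
    (hKV : ∀ W : WeierstrassCurve ℤ, W.IsIntegralModelOf P.freyCurve →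
      ∀ [NeZero (N / P.p)] [NeZero P.p] [NeZero (N / P.p * P.p)], ¬ P.p ∣ N / P.p →
        KV W P.p (N / P.p))
    (hKNat : ∀ (W : WeierstrassCurve ℤ) (r : ℕ), W.IsIntegralModelOf P.freyCurve →
      IsAux W P.p (N / P.p) r →
      ∀ [NeZero (N / P.p)] [NeZero r] [NeZero (N / P.p * r)] [Fact P.p.Prime] [NeZero P.p]
        [NeZero (N / P.p * P.p)] [NeZero (N / P.p * r * P.p)] (h : ¬ P.p ∣ N / P.p * r)
        (B : ValuationSubring Kb) (hB : B.LiesOverPrime P.p) [IsAlgClosed (ResidueField B)],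
        KNat (modularData_final (M := N / P.p * r) (q := P.p) B hB h) W)
    (hKCase1 : ∀ (W : WeierstrassCurve ℤ) (r : ℕ), W.IsIntegralModelOf P.freyCurve →
      IsAux W P.p (N / P.p) r →
      ∀ [NeZero (N / P.p)] [NeZero r] [NeZero (N / P.p * r)] [Fact P.p.Prime] [NeZero P.p]
        [NeZero (N / P.p * P.p)] [NeZero (N / P.p * r * P.p)] (h : ¬ P.p ∣ N / P.p * r)
        (B : ValuationSubring Kb) (hB : B.LiesOverPrime P.p) [IsAlgClosed (ResidueField B)],
        KCase1 (modularData_final (M := N / P.p * r) (q := P.p) B hB h) W) :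
    ∃ M : ℕ, M ∣ N ∧ ¬ P.p ∣ M ∧ P.ModularRepOfLevel M := by
  have hell : P.freyCurve.IsElliptic :=
    ⟨isUnit_iff_ne_zero.mpr (Fermat.Agent.S05.freyCurve_Δ_ne_zero P)⟩
  have hp2 : P.p ≠ 2 := by have := P.hp5; omega
  refine s44_of_kernels P hcond hpN hirr hmod (aux_of_frey P hcond hpN) ?_ ?_
  · intro W hW _ _ _ hpM'
    exact Fermat.Agent.FF4.K4.baseKernels_of_kV W P.pp (hKV W hW hpM')
  · intro W r hW haux _ _ _ _ _ _ _ h
    have hΔ : W.Δ ≠ 0 := Fermat.Agent.LR.NonEis.Δ_ne_zero_of_isIntegralModelOf P.freyCurve hW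
    obtain ⟨B, hB⟩ := Fermat.Agent.S54.exists_valuationSubring_liesOver P.p P.pp
    haveI : IsAlgClosed (ResidueField B) := Fermat.Agent.Val.residueField_isAlgClosed B
    exact ⟨kUp P.pp haux h, Fermat.Agent.FF4.KGal.kGal W hΔ P.pp hp2,
      B, hB, inferInstance, modularData_final B hB h, hKNat W r hW haux h B hB,
      hKCase1 W r hW haux h B hB, kTor _ haux.nuTwo haux.nuThree⟩

end Fermat.Agent.FF4.Seam
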