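import Fermat.Agent.FF4.Seam.S44Seam
import Fermat.Agent.FF4.CaseI.KCase1

/-!
# PROGRAMME II (S44): SEAM TEST 2 (helper25, organiser)

`s44_of_kv_knat` : the frozen S44 shape from (K-V) and (K-NAT) only: (K-CASE1) is helper2's theorem
`FF4/CaseI/KCase1.kCase1_of_isAux` (@b74e7fc1), plugged into `Seam.s44_of_open`.
-/

set_option autoImplicit false
set_option linter.unusedSectionVars false
set_option linter.unusedVariables false
set_option linter.style.haveILetI false

noncomputable section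

set_option synthInstance.maxHeartbeats 400000

namespace Fermat.Agent.FF4.Seam

open ModularCurve WeierstrassCurve IsLocalRing
open Fermat.Agent.X0 Fermat.Agent.BR Fermat.Agent.BR.Final Fermat.Agent.BR2
  Fermat.Agent.BR2.SetupOfData Fermat.Agent.BR2.LevelPlug Fermat.Agent.Pseudo Fermat.Agent.Jac
  Fermat.Agent.Hecke Fermat.Agent.FF4.S40Skeleton Fermat.Agent.FF4.S44Skeleton
  Fermat.Agent.FF4.K6 Fermat.Agent.BR.Inst.AnnulusInstFinal

/-- **S44 from (K-V) and (K-NAT) only.** -/
theorem s44_of_kv_knat (P : FreyPackage) {N : ℕ} (hcond : P.IsConductorLevel N)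
    (hpN : P.p ∣ N)
    (hirr : WeierstrassCurve.Affine.Point.GaloisRepIsIrreducible (K := AlgebraicClosure ℚ) ℚ
      P.freyCurve P.p)
    (hmod : P.ModularRepOfLevel N)
    (hKV : ∀ W : WeierstrassCurve ℤ, W.IsIntegralModelOf P.freyCurve →
      ∀ [NeZero (N / P.p)] [NeZero P.p] [NeZero (N / P.p * P.p)], ¬ P.p ∣ N / P.p →
        KV W P.p (N / P.p))
    (hKNat : ∀ (W : WeierstrassCurve ℤ) (r : ℕ), W.IsIntegralModelOf P.freyCurve →
      IsAux W P.p (N / P.p) r →
      ∀ [NeZero (N / P.p)] [NeZero r] [NeZero (N / P.p * r)] [Fact P.p.Prime] [NeZero P.p]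
        [NeZero (N / P.p * P.p)] [NeZero (N / P.p * r * P.p)] (h : ¬ P.p ∣ N / P.p * r)
        (B : ValuationSubring Kb) (hB : B.LiesOverPrime P.p) [IsAlgClosed (ResidueField B)],
        KNat (modularData_final (M := N / P.p * r) (q := P.p) B hB h) W) :
    ∃ M : ℕ, M ∣ N ∧ ¬ P.p ∣ M ∧ P.ModularRepOfLevel M := by
  have hNp : N / P.p * P.p = N := Nat.div_mul_cancel hpN
  have hpM' : ¬ P.p ∣ N / P.p := fun h => hcond.sq_not_dvd P.pp (by
    rw [← hNp, pow_two]; exact Nat.mul_dvd_mul h dvd_rfl)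
  refine s44_of_open P hcond hpN hirr hmod hKV hKNat ?_
  intro W r hW haux _ _ _ _ _ _ _ h B hB _
  exact Fermat.Agent.FF4.CaseI.kCase1_of_isAux _ W haux hpM'

end Fermat.Agent.FF4.Seam
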