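import Fermat.Agent.FF4.Seam.S44Seam2
import Fermat.Agent.FF4.KV2.KVAssembly
import Fermat.Agent.FF4.KNatPlug
import Fermat.Agent.FF4.K1Out.NodeOut
import Fermat.Agent.FF4.GeoAssembly.K1Final
import Fermat.Agent.LR.VarChangePoint

/-!
# PROGRAMME II (S44): THE FULL PLUG (helper25, organiser)

`s44_final` : the frozen S44 shape, NO hypothesis left:
* (K-V) := helper5's `FF4/KV2/KVAssembly.kV` (@d51f7783, canonical by helper4's ruling);
* (K-NAT) := helper1's `FF4/KNatPlug.kNat_of_k1` (@2e10f1e4), `hK3 := K3Plug.k3At_of_frey`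
  (helper21), `hK1N := k1NodeOut` (helper16 @12d11273), `hK1 := k1Out` (helper11 @32873105);
* (K-CASE1) := helper2's `kCase1_of_isAux` (`Seam.s44_of_kv_knat`).
-/

set_option autoImplicit false
set_option linter.unusedSectionVars false
set_option linter.unusedVariables false
set_option linter.style.haveILetI false

noncomputable section

set_option synthInstance.maxHeartbeats 400000

namespace Fermat.Agent.FF4.Seam

open ModularCurve WeierstrassCurve IsLocalRing
open Fermat.Agent.X0 Fermat.Agent.BR Fermat.Agent.BR.Final Fermat.Agent.BR2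
  Fermat.Agent.BR2.SetupOfData Fermat.Agent.BR2.LevelPlug Fermat.Agent.Pseudo Fermat.Agent.Jac
  Fermat.Agent.Hecke Fermat.Agent.FF4.S40Skeleton Fermat.Agent.FF4.S44Skeleton
  Fermat.Agent.FF4.K6 Fermat.Agent.BR.Inst.AnnulusInstFinal Fermat.Agent.FF4.K1Out

/-- **S44**, all kernels plugged. -/
theorem s44_final (P : FreyPackage) {N : ℕ} (hcond : P.IsConductorLevel N)
    (hpN : P.p ∣ N)
    (hirr : WeierstrassCurve.Affine.Point.GaloisRepIsIrreducible (K := AlgebraicClosure ℚ) ℚ
      P.freyCurve P.p)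
    (hmod : P.ModularRepOfLevel N) :
    ∃ M : ℕ, M ∣ N ∧ ¬ P.p ∣ M ∧ P.ModularRepOfLevel M := by
  have hell : P.freyCurve.IsElliptic :=
    ⟨isUnit_iff_ne_zero.mpr (Fermat.Agent.S05.freyCurve_Δ_ne_zero P)⟩
  have hp2 : P.p ≠ 2 := by have := P.hp5; omega
  refine s44_of_kv_knat P hcond hpN hirr hmod ?_ ?_
  · intro W hW _ _ _ hpM'
    exact Fermat.Agent.FF4.KV2.kV W
      (Fermat.Agent.LR.NonEis.Δ_ne_zero_of_isIntegralModelOf P.freyCurve hW) P.pp hp2 hpM'
  · intro W r hW haux _ _ _ _ _ _ _ h B hB _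
    exact Fermat.Agent.FF4.KNatPlug.kNat_of_k1 _ W
      (Fermat.Agent.LR.NonEis.Δ_ne_zero_of_isIntegralModelOf P.freyCurve hW) P.hp5
      (Fermat.Agent.LR.VarChangePoint.irreducible_of_isIntegralModelOf hW P.p hirr)
      haux.nuTwo haux.nuThree
      (Fermat.Agent.FF4.K4.K3Plug.k3At_of_frey P hcond hpN W hW)
      (k1Out _ haux.nuTwo haux.nuThree)
      (k1NodeOut _)

end Fermat.Agent.FF4.Seam
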